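import Mathlib

/-!
# Row LT, tower T2, sub-leaf T2.02d.5c (`LocRealC724`), core (helper437) -- Mathlib only

For every real `2 × 2` matrix `M` there is `A ∈ SO(2)` with `adjugate M = A * M * (-A)`.

Explicitly: write `M = [[a, b], [c, d]]`.  For `A = [[s, -t], [t, s]]` one has
`A * M * (-A) = adjugate M` as soon as `s * (a + d) = t * (c - b)`, and a unit vector `(s, t)` with
this property always exists (`(s, t) = (c - b, a + d) / r`, or `(1, 0)` when `a + d = c - b = 0`).
No hypothesis on the determinant is needed.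
-/

set_option autoImplicit false

namespace Fermat.Agent.LT.T2.H437

/-- The rotation-type matrix `[[s, -t], [t, s]]`. -/
def rot437 (s t : ℝ) : Matrix (Fin 2) (Fin 2) ℝ := !![s, -t; t, s]

theorem rot437_mul_transpose (s t : ℝ) (h : s ^ 2 + t ^ 2 = 1) :
    rot437 s t * (rot437 s t).transpose = 1 := by
  ext i j
  fin_cases i <;> fin_cases j <;>
    simp [rot437, Matrix.mul_apply, Fin.sum_univ_two] <;> nlinarith [h]

theorem rot437_det (s t : ℝ) (h : s ^ 2 + t ^ 2 = 1) : (rot437 s t).det = 1 := by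
  rw [rot437, Matrix.det_fin_two_of]
  nlinarith [h]

theorem neg_rot437_mul_transpose (s t : ℝ) (h : s ^ 2 + t ^ 2 = 1) :
    (-rot437 s t) * (-rot437 s t).transpose = 1 := by
  rw [Matrix.transpose_neg, neg_mul_neg]
  exact rot437_mul_transpose s t h

theorem neg_rot437_det (s t : ℝ) (h : s ^ 2 + t ^ 2 = 1) : (-rot437 s t).det = 1 := by
  rw [Matrix.det_neg, rot437_det s t h]
  simp

/-- The key identity: `adjugate M = A * M * (-A)` for `A = rot437 s t` with
`s * (M 0 0 + M 1 1) = t * (M 1 0 - M 0 1)` and `s² + t² = 1`. -/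
theorem adjugate_eq_rot437 (M : Matrix (Fin 2) (Fin 2) ℝ) (s t : ℝ) (h : s ^ 2 + t ^ 2 = 1)
    (hst : s * (M 0 0 + M 1 1) = t * (M 1 0 - M 0 1)) :
    M.adjugate = rot437 s t * M * (-rot437 s t) := by
  have hM : M = !![M 0 0, M 0 1; M 1 0, M 1 1] := Matrix.eta_fin_two M
  generalize M 0 0 = a at hM hst
  generalize M 0 1 = b at hM hst
  generalize M 1 0 = c at hM hst
  generalize M 1 1 = d at hM hst
  subst hM
  have e11 : d = -((s * a + -(t * c)) * s) + -((s * b + -(t * d)) * t) := by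
    linear_combination (-d) * h + s * hst
  have e12 : -b = (s * a + -(t * c)) * t + -((s * b + -(t * d)) * s) := by
    linear_combination b * h + (-t) * hst
  have e21 : -c = -((t * a + s * c) * s) + -((t * b + s * d) * t) := by
    linear_combination c * h + t * hst
  have e22 : a = (t * a + s * c) * t + -((t * b + s * d) * s) := by
    linear_combination (-a) * h + s * hst
  rw [Matrix.adjugate_fin_two_of, rot437]
  simp only [Matrix.mul_fin_two, Matrix.neg_of, Matrix.neg_cons, Matrix.neg_empty, neg_neg,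
    mul_neg, neg_mul]
  ext i j
  fin_cases i <;> fin_cases j
  · simpa using e11
  · simpa using e12
  · simpa using e21
  · simpa using e22

/-- A unit vector `(s, t)` with `s * x = t * y`. -/
theorem exists_unit437 (x y : ℝ) : ∃ s t : ℝ, s ^ 2 + t ^ 2 = 1 ∧ s * x = t * y := by
  by_cases h0 : x ^ 2 + y ^ 2 = 0
  · have hx : x = 0 := by nlinarith [sq_nonneg x, sq_nonneg y]
    have hy : y = 0 := by nlinarith [sq_nonneg x, sq_nonneg y]
    exact ⟨1, 0, by norm_num, by rw [hx, hy]; ring⟩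
  · have hpos : 0 < x ^ 2 + y ^ 2 := lt_of_le_of_ne (by positivity) (Ne.symm h0)
    have hr : 0 < Real.sqrt (x ^ 2 + y ^ 2) := Real.sqrt_pos.mpr hpos
    have hr2 : Real.sqrt (x ^ 2 + y ^ 2) ^ 2 = x ^ 2 + y ^ 2 := Real.sq_sqrt hpos.le
    refine ⟨y / Real.sqrt (x ^ 2 + y ^ 2), x / Real.sqrt (x ^ 2 + y ^ 2), ?_, ?_⟩
    · rw [div_pow, div_pow, hr2]
      field_simp
      ring
    · field_simp

/-- **Core of T2.02d.5c**: for every real `2 × 2` matrix `M` there are `A, B ∈ SO(2)` with
`adjugate M = A * M * B`. -/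
theorem locReal437 (M : Matrix (Fin 2) (Fin 2) ℝ) :
    ∃ A B : Matrix (Fin 2) (Fin 2) ℝ,
      A * A.transpose = 1 ∧ A.det = 1 ∧ B * B.transpose = 1 ∧ B.det = 1 ∧
        M.adjugate = A * M * B := by
  obtain ⟨s, t, h, hst⟩ := exists_unit437 (M 0 0 + M 1 1) (M 1 0 - M 0 1)
  exact ⟨rot437 s t, -rot437 s t, rot437_mul_transpose s t h, rot437_det s t h,
    neg_rot437_mul_transpose s t h, neg_rot437_det s t h, adjugate_eq_rot437 M s t h hst⟩

end Fermat.Agent.LT.T2.H437
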