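import Mathlib
import Fermat.Agent.LT.T2.H724.CommSpec
import Fermat.Agent.LT.T2.H437.LocRealCore

/-!
# Row LT, tower T2, sub-leaf T2.02d.5c: `H724.LocRealC724` PROVED (helper437)

Registry row 1083.  Statement = `Fermat.Agent.LT.T2.H724.LocRealC724` of
`LT/T2/H724/CommSpec.lean` (helper724@7fd05bef9), VERBATIM.  The hypothesis `M.det ≠ 0` is not
used.
-/

set_option autoImplicit false

namespace Fermat.Agent.LT.T2.H437

theorem locRealC724_holds437 : Fermat.Agent.LT.T2.H724.LocRealC724 :=
  fun M _ => locReal437 M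

end Fermat.Agent.LT.T2.H437
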