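import Mathlib
import Fermat.Agent.LT.T2.H511.FDSpec

/-!
# Row LT, tower T2, leaf T2.03a.2 = `H511.LeafUnifSmooth` (registry row 1225, helper437): THE CUT

OFF-MAIN.  Definitions and frozen sub-leaf Props.  Bytes typed against `LT/T2/H511/FDSpec.lean`
(helper511@94e516506, sha256 ad79b18a) and its closure (A0 66d3374a, T1/Spec e8ae48d6,
T2/Spec b934629a, T2/H386/GPSSpec fb5aa9e8), byte-identical copies.

The top (file `LT/T2/H437/USTop.lean`, helper437):

    leafUnifSmooth_of_leaves437 :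
      FDCalcC437 → LevelNhdsC437 K → H511.CptC K → (∀ 𝔫 ≠ ⊥, H511.UnifSmoothC K 𝔫)

## Sub-leaves

* `FDCalcC437` (T2.03a.2a, Mathlib only): finite differences of a smooth function on `ℝ^N` are
  bounded by the product of the steps, uniformly on bounded sets.
* `LevelNhdsC437 K` (T2.03a.2b, adelic topology): the finite part of the level group is a
  neighbourhood of `1` in `GL₂(𝔸_K)`.
* `H511.CptC K` (T2.03a.4 of helper511, sibling leaf): compactness of the conjugates and of the box.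

## The proof of the top (helper437)

`P∞ g`, `Pf g`: the infinite and the finite part of `g ∈ GL₂(𝔸_K)`; they commute.
For `y` supported at infinity `ω⁻¹ n(y) ω = (P∞ ω)⁻¹ n(y) (P∞ ω)`, and for `ω = ω₀ a c`,
`h = h₀ a' u` (`a = A(X)`, `a' = A(X')` in the chart `A(X) = 1 + ρ(X)` at infinity, `c` supported
at the finite places, `u ∈ U(𝔫)`):

    f (ω⁻¹ n(y) ω h) = f (h₀ · Y(X, t(y), X')),
    Y(X, t, X') = (P∞ h₀)⁻¹ A(X)⁻¹ (P∞ ω₀)⁻¹ n(t) (P∞ ω₀) A(X) (P∞ h₀) A(X'),

a smooth family supported at infinity; `T2.IsSmoothAtInf` makes `p ↦ f (h₀ · Y p)` smooth,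
`FDCalcC437` bounds its finite differences on the unit ball, finitely many charts `(ω₀, h₀)` cover
`Ω × (W⁻¹ supp f)` (`LevelNhdsC437`, `CptC`), and outside `W⁻¹ supp f` all values vanish.
-/

set_option autoImplicit false

open IsDedekindDomain NumberField
open Fermat.Agent.LT.H556.A0

noncomputable section

namespace Fermat.Agent.LT.T2.H437

variable {K : Type} [Field K] [NumberField K]

/-! ## 1. Vocabulary -/

/-- Iterated BACKWARD difference of a function on an additive group: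
`rdiff437 [u₁, …, u_M] φ = ∇_{u_M} ⋯ ∇_{u₁} φ`, `∇_u φ (y) = φ(y) - φ(y - u)`
(the recursion of `H511.bdiff511`). -/
def rdiff437 {E F : Type*} [AddGroup E] [AddGroup F] : List E → (E → F) → (E → F)
  | [], φ => φ
  | u :: us, φ => rdiff437 us (fun y => φ y - φ (y - u))

/-- The finite part of the level condition: `g ≡ 1 mod 𝔫` and `g⁻¹ ≡ 1 mod 𝔫` at every finite
place (NO condition at the infinite places). -/
def FinLevel437 (𝔫 : Ideal (𝓞 K)) (g : G K) : Prop :=
  ∀ (v : HeightOneSpectrum (𝓞 K)) (i j : Fin 2),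
    (finComp v g - 1) i j ∈ idealClosure 𝔫 v ∧ (finComp v g⁻¹ - 1) i j ∈ idealClosure 𝔫 v

/-! ## 2. The sub-leaf Props -/

/-- **T2.03a.2a FD CALCULUS** (Mathlib only).  For a smooth `φ : ℝ^N → ℂ`, `M` and `r` there is
`B` such that for every base point `x` with `‖x‖ ≤ r`, every `0 ≤ ε ≤ 1` and all steps
`t₁, …, t_M` with `‖t_i‖ ≤ ε r`: `‖∇_{t_M} ⋯ ∇_{t₁} φ (x)‖ ≤ B ε^M`.
Proof: by induction on `M` for `C^M` functions with values in a normed space,
`‖∇_{t_M} ⋯ ∇_{t₁} φ (x)‖ ≤ ∏ ‖t_i‖ · sup {‖D^M φ (z)‖ : ‖z‖ ≤ ‖x‖ + ∑ ‖t_i‖}`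
(`D^m (∇_u φ) (z) = D^m φ (z) - D^m φ (z - u)`: `iteratedFDeriv_comp_add_right`; mean value
inequality on the segment `[z - u, z]` for `D^m φ`: `Convex.norm_image_sub_le_of_norm_fderiv_le`,
`norm_fderiv_iteratedFDeriv`); `D^M φ` is continuous, hence bounded on the closed ball of radius
`(M + 1) r` (compact: `ProperSpace`); `B = r^M · sup`. -/
def FDCalcC437 : Prop :=
  ∀ (N : ℕ) (φ : (Fin N → ℝ) → ℂ), ContDiff ℝ (⊤ : ℕ∞) φ → ∀ (M : ℕ) (r : ℝ),
    ∃ B : ℝ, 0 ≤ B ∧ ∀ x : Fin N → ℝ, ‖x‖ ≤ r → ∀ ε : ℝ, 0 ≤ ε → ε ≤ 1 →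
      ∀ ts : List (Fin N → ℝ), ts.length = M → (∀ t ∈ ts, ‖t‖ ≤ ε * r) →
        ‖rdiff437 ts φ x‖ ≤ B * ε ^ M

/-- **T2.03a.2b LEVEL NEIGHBOURHOOD** (adelic topology).  The set of `g ∈ GL₂(𝔸_K)` with
`g ≡ 1` and `g⁻¹ ≡ 1 mod 𝔫` at every finite place is a neighbourhood of `1`.
Proof: `{x ∈ 𝔸_f : x_v ∈ 𝔫 𝒪_v for all v}` is open in the finite adeles (restricted product:
`idealClosure 𝔫 v` is open in `K_v`, and equal to `𝒪_v` for `v ∤ 𝔫`, i.e. for almost all `v`);
the maps `g ↦ (g - 1) i j` and `g ↦ (g⁻¹ - 1) i j` from `GL₂(𝔸_K)` (topology of units) to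
`𝔸_K → 𝔸_f` are continuous. -/
def LevelNhdsC437 (K : Type) [Field K] [NumberField K] : Prop :=
  ∀ 𝔫 : Ideal (𝓞 K), 𝔫 ≠ ⊥ → {g : G K | FinLevel437 𝔫 g} ∈ nhds (1 : G K)

/-! ## Equation lemmas of `rdiff437`, REALISED ONCE (ADDITIVE appendix, row-lead helper17, 16:00Z; fix of
helper8 / helper112 / helper493, see `coord/LT-collision-helper8.md`): the grader's kernel checker
rejects a closure in which two modules realise `rdiff437.eq_def`.  Nothing above this line is changed. -/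

theorem rdiff437_eqns_realised {E F : Type*} [AddGroup E] [AddGroup F] (φ : E → F) :
    rdiff437 ([] : List E) φ = φ := by
  have _h0 := @rdiff437.eq_def E F _ _
  have _h1 := @rdiff437.eq_1 E F _ _
  have _h2 := @rdiff437.eq_2 E F _ _
  rfl

end Fermat.Agent.LT.T2.H437

end
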