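import Mathlib

/-!
# Row LT, tower T2, leaf T2.03a.2 (helper437): charts -- Mathlib only

* `rho437 x = x / (8 √(1 + x²))`: a smooth map `ℝ → (-1/8, 1/8)` whose restriction to `[-1, 1]`
  covers `[-1/16, 1/16]`;
* `det (1 + Y) ≠ 0` for a complex `2 × 2` matrix with entries of norm `≤ 1/4`;
* matrix valued functions with smooth entries: products, inverses.
-/

set_option autoImplicit false

noncomputable section

namespace Fermat.Agent.LT.T2.H437

/-! ## 1. The one-dimensional chart -/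

/-- The chart `ℝ → (-1/8, 1/8)`. -/
def rho437 (x : ℝ) : ℝ := x / (8 * Real.sqrt (1 + x ^ 2))

theorem one_add_sq_pos437 (x : ℝ) : 0 < 1 + x ^ 2 := by positivity

theorem sqrt_pos437 (x : ℝ) : 0 < Real.sqrt (1 + x ^ 2) := Real.sqrt_pos.mpr (one_add_sq_pos437 x)

theorem contDiff_rho437 : ContDiff ℝ (⊤ : ℕ∞) rho437 := by
  unfold rho437
  have h1 : ContDiff ℝ (⊤ : ℕ∞) (fun x : ℝ => 1 + x ^ 2) :=
    contDiff_const.add (contDiff_id.pow 2)
  have h2 : ContDiff ℝ (⊤ : ℕ∞) (fun x : ℝ => Real.sqrt (1 + x ^ 2)) :=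
    h1.sqrt (fun x => (one_add_sq_pos437 x).ne')
  exact contDiff_id.div (contDiff_const.mul h2) (fun x => (mul_pos (by norm_num) (sqrt_pos437 x)).ne')

theorem abs_lt_sqrt437 (x : ℝ) : |x| < Real.sqrt (1 + x ^ 2) := by
  rw [← Real.sqrt_sq_eq_abs]
  exact Real.sqrt_lt_sqrt (sq_nonneg x) (by linarith)

theorem abs_rho437_lt (x : ℝ) : |rho437 x| < 1 / 8 := by
  unfold rho437
  have hs := sqrt_pos437 x
  rw [abs_div, abs_of_pos (mul_pos (by norm_num : (0 : ℝ) < 8) hs), div_lt_iff₀ (by positivity)]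
  have := abs_lt_sqrt437 x
  linarith

theorem exists_rho437_eq {y : ℝ} (hy : |y| ≤ 1 / 16) : ∃ x : ℝ, |x| ≤ 1 ∧ rho437 x = y := by
  have hc : ContinuousOn rho437 (Set.Icc (-1 : ℝ) 1) := contDiff_rho437.continuous.continuousOn
  have hs2 : Real.sqrt (1 + (1 : ℝ) ^ 2) ≤ 2 := by
    rw [show (1 : ℝ) + 1 ^ 2 = 2 by norm_num]
    exact Real.sqrt_le_iff.mpr ⟨by norm_num, by norm_num⟩
  have hs2' : Real.sqrt (1 + (-1 : ℝ) ^ 2) ≤ 2 := by
    rw [show (1 : ℝ) + (-1) ^ 2 = 2 by norm_num]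
    exact Real.sqrt_le_iff.mpr ⟨by norm_num, by norm_num⟩
  have h1 : (1 : ℝ) / 16 ≤ rho437 1 := by
    unfold rho437
    rw [div_le_div_iff₀ (by norm_num) (mul_pos (by norm_num) (sqrt_pos437 1))]
    linarith
  have h2 : rho437 (-1) ≤ -(1 / 16) := by
    unfold rho437
    rw [neg_div, neg_le_neg_iff, div_le_div_iff₀ (by norm_num) (mul_pos (by norm_num) (sqrt_pos437 (-1)))]
    linarith
  have hy' := abs_le.mp hy
  have hmem : y ∈ Set.Icc (rho437 (-1)) (rho437 1) := ⟨by linarith, by linarith⟩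
  obtain ⟨x, hx, hxy⟩ := intermediate_value_Icc (by norm_num : (-1 : ℝ) ≤ 1) hc hmem
  exact ⟨x, abs_le.mpr ⟨hx.1, hx.2⟩, hxy⟩

/-! ## 2. `det (1 + Y) ≠ 0` -/

theorem det_one_add_ne_zero437 (Y : Matrix (Fin 2) (Fin 2) ℂ) (h : ∀ i j, ‖Y i j‖ ≤ 1 / 4) :
    (1 + Y).det ≠ 0 := by
  intro h0
  have e : (1 + Y).det = 1 + (Y 0 0 + Y 1 1 + Y 0 0 * Y 1 1 - Y 0 1 * Y 1 0) := by
    rw [Matrix.det_fin_two]
    simp [Matrix.add_apply]
    ring
  have hb : ‖Y 0 0 + Y 1 1 + Y 0 0 * Y 1 1 - Y 0 1 * Y 1 0‖ ≤ 5 / 8 := by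
    have h00 := h 0 0
    have h11 := h 1 1
    have h01 := h 0 1
    have h10 := h 1 0
    have n00 := norm_nonneg (Y 0 0)
    have n11 := norm_nonneg (Y 1 1)
    have n01 := norm_nonneg (Y 0 1)
    have n10 := norm_nonneg (Y 1 0)
    calc ‖Y 0 0 + Y 1 1 + Y 0 0 * Y 1 1 - Y 0 1 * Y 1 0‖
        ≤ ‖Y 0 0 + Y 1 1 + Y 0 0 * Y 1 1‖ + ‖Y 0 1 * Y 1 0‖ := norm_sub_le _ _
      _ ≤ (‖Y 0 0 + Y 1 1‖ + ‖Y 0 0 * Y 1 1‖) + ‖Y 0 1 * Y 1 0‖ := by
          gcongr; exact norm_add_le _ _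
      _ ≤ ((‖Y 0 0‖ + ‖Y 1 1‖) + ‖Y 0 0‖ * ‖Y 1 1‖) + ‖Y 0 1‖ * ‖Y 1 0‖ := by
          gcongr
          · exact norm_add_le _ _
          · exact (norm_mul _ _).le
          · exact (norm_mul _ _).le
      _ ≤ 5 / 8 := by nlinarith
  have h1 : (1 : ℂ) = -(Y 0 0 + Y 1 1 + Y 0 0 * Y 1 1 - Y 0 1 * Y 1 0) := by
    rw [e] at h0
    exact eq_neg_of_add_eq_zero_left h0
  have h2 : ‖(1 : ℂ)‖ ≤ 5 / 8 := by
    rw [h1, norm_neg]
    exact hb
  rw [norm_one] at h2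
  norm_num at h2

/-! ## 3. Matrix valued functions with smooth entries -/

variable {E : Type*} [NormedAddCommGroup E] [NormedSpace ℝ E]

/-- A `2 × 2` matrix valued function with smooth entries. -/
def SmoothMat437 (F : E → Matrix (Fin 2) (Fin 2) ℂ) : Prop :=
  ∀ i j : Fin 2, ContDiff ℝ (⊤ : ℕ∞) (fun q => F q i j)

theorem smoothMat_const437 (A : Matrix (Fin 2) (Fin 2) ℂ) : SmoothMat437 (fun _ : E => A) :=
  fun _ _ => contDiff_const

theorem SmoothMat437.mul {F G : E → Matrix (Fin 2) (Fin 2) ℂ} (hF : SmoothMat437 F)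
    (hG : SmoothMat437 G) : SmoothMat437 (fun q => F q * G q) := by
  intro i j
  simp only [Matrix.mul_apply, Fin.sum_univ_two]
  exact ((hF i 0).mul (hG 0 j)).add ((hF i 1).mul (hG 1 j))

/-- The inverse of a matrix valued function with smooth entries has smooth entries. -/
theorem SmoothMat437.inv {F G : E → Matrix (Fin 2) (Fin 2) ℂ} (hF : SmoothMat437 F)
    (hFG : ∀ q, F q * G q = 1) : SmoothMat437 G := by
  have hdet : ∀ q, (F q).det ≠ 0 := by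
    intro q h0
    have := congrArg Matrix.det (hFG q)
    rw [Matrix.det_mul, h0, zero_mul, Matrix.det_one] at this
    exact zero_ne_one this
  have hG : ∀ q, G q = (F q).det⁻¹ • (F q).adjugate := by
    intro q
    have h1 : (F q)⁻¹ = G q := Matrix.inv_eq_right_inv (hFG q)
    rw [← h1, Matrix.inv_def, Ring.inverse_eq_inv']
  have hd : ContDiff ℝ (⊤ : ℕ∞) (fun q => (F q).det) := by
    simp only [Matrix.det_fin_two]
    exact ((hF 0 0).mul (hF 1 1)).sub ((hF 0 1).mul (hF 1 0))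
  have hdi : ContDiff ℝ (⊤ : ℕ∞) (fun q => ((F q).det)⁻¹) := hd.inv hdet
  intro i j
  simp only [hG, Matrix.smul_apply, smul_eq_mul, Matrix.adjugate_fin_two]
  fin_cases i <;> fin_cases j
  · simpa using hdi.mul (hF 1 1)
  · simpa using hdi.mul (hF 0 1).neg
  · simpa using hdi.mul (hF 1 0).neg
  · simpa using hdi.mul (hF 0 0)

end Fermat.Agent.LT.T2.H437

end
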