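import Mathlib
import Fermat.Agent.LT.T2.H724.Glue
import Fermat.Agent.LT.T2.H437.USSpec
import Fermat.Agent.LT.T2.H437.USChart

/-!
# Row LT, tower T2, leaf T2.03a.2 (helper437): the smooth families at infinity

* `kap437 w a b`: the element of `K_w` with real coordinates `(a, b)`;
* `cGL437 w`, `fGL437 v`: the components of `GL₂(𝔸_K)` as group homomorphisms;
* `pInf437 g`: the infinite part of `g`; `chartG437 X`: the chart `1 + ρ(X)` at infinity;
* `fam437 ω₀ h₀ X t X'`: the family `Y(X, t, X')`, its components, and the relation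
  `ω⁻¹ n(y) ω h = h₀ · Y(X, t(y), X') · u`.

Reuses the component calculus of helper724 (`LT/T2/H724/Glue.lean`, `LT/T1/H724/HeckeCoset.lean`,
byte-identical copies).
-/

set_option autoImplicit false

open IsDedekindDomain NumberField
open Fermat.Agent.LT.H556.A0 Fermat.Agent.LT.T1.H724 Fermat.Agent.LT.T2.H724
open Fermat.Agent.LT.T2.H386 Fermat.Agent.LT.T2.H511

noncomputable section

namespace Fermat.Agent.LT.T2.H437

set_option linter.unusedSectionVars false

variable {K : Type} [Field K] [NumberField K]

/-! ## 1. Real coordinates on the completions at the infinite places -/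

open Classical in
/-- The element of `K_w` with real coordinates `(a, b)` (`b` is ignored at a real place). -/
def kap437 (w : InfinitePlace K) (a b : ℝ) : w.Completion :=
  if hw : w.IsReal then (InfinitePlace.Completion.ringEquivRealOfIsReal hw).symm a
  else (InfinitePlace.Completion.ringEquivComplexOfIsComplex
    (InfinitePlace.not_isReal_iff_isComplex.mp hw)).symm (⟨a, b⟩ : ℂ)

open Classical in
/-- The complex number with coordinates `(a, b)` at `w` (`b` is ignored at a real place). -/
def kapC437 (w : InfinitePlace K) (a b : ℝ) : ℂ :=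
  if w.IsReal then (a : ℂ) else (⟨a, b⟩ : ℂ)

theorem emb_kap437 (w : InfinitePlace K) (a b : ℝ) :
    InfinitePlace.Completion.extensionEmbedding w (kap437 w a b) = kapC437 w a b := by
  classical
  unfold kap437 kapC437
  by_cases hw : w.IsReal
  · rw [dif_pos hw, if_pos hw, ← InfinitePlace.Completion.extensionEmbeddingOfIsReal_apply hw,
      ← InfinitePlace.Completion.ringEquivRealOfIsReal_apply, RingEquiv.apply_symm_apply]
  · rw [dif_neg hw, if_neg hw,
      ← InfinitePlace.Completion.ringEquivComplexOfIsComplex_apply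
        (InfinitePlace.not_isReal_iff_isComplex.mp hw),
      RingEquiv.apply_symm_apply]

/-- Every element of `K_w` is given by its real coordinates. -/
theorem kap_coord437 (w : InfinitePlace K) (x : w.Completion) :
    kap437 w (InfinitePlace.Completion.extensionEmbedding w x).re
      (InfinitePlace.Completion.extensionEmbedding w x).im = x := by
  classical
  apply (InfinitePlace.Completion.extensionEmbedding w).injective
  rw [emb_kap437]
  unfold kapC437
  by_cases hw : w.IsReal
  · rw [if_pos hw, ← InfinitePlace.Completion.extensionEmbeddingOfIsReal_apply hw,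
      Complex.ofReal_re]
  · rw [if_neg hw]

theorem norm_emb437 (w : InfinitePlace K) (x : w.Completion) :
    ‖InfinitePlace.Completion.extensionEmbedding w x‖ = ‖x‖ :=
  (InfinitePlace.Completion.isometry_extensionEmbedding w).norm_map_of_map_zero (map_zero _) x

theorem norm_kapC_le437 (w : InfinitePlace K) (a b : ℝ) : ‖kapC437 w a b‖ ≤ |a| + |b| := by
  classical
  unfold kapC437
  by_cases hw : w.IsReal
  · rw [if_pos hw, Complex.norm_real, Real.norm_eq_abs]
    linarith [abs_nonneg b]
  · rw [if_neg hw]
    calc ‖(⟨a, b⟩ : ℂ)‖ ≤ |(⟨a, b⟩ : ℂ).re| + |(⟨a, b⟩ : ℂ).im| := Complex.norm_le_abs_re_add_abs_im _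
      _ = |a| + |b| := rfl

/-- Smoothness of the complex number with smooth coordinates. -/
theorem contDiff_kapC437 {E : Type*} [NormedAddCommGroup E] [NormedSpace ℝ E]
    (w : InfinitePlace K) {a b : E → ℝ} (ha : ContDiff ℝ (⊤ : ℕ∞) a)
    (hb : ContDiff ℝ (⊤ : ℕ∞) b) : ContDiff ℝ (⊤ : ℕ∞) (fun q => kapC437 w (a q) (b q)) := by
  classical
  unfold kapC437
  have h1 : ContDiff ℝ (⊤ : ℕ∞) (fun q => ((a q : ℝ) : ℂ)) :=
    Complex.ofRealCLM.contDiff.comp ha
  have h2 : ContDiff ℝ (⊤ : ℕ∞) (fun q => ((b q : ℝ) : ℂ)) :=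
    Complex.ofRealCLM.contDiff.comp hb
  by_cases hw : w.IsReal
  · simp only [if_pos hw]
    exact h1
  · simp only [if_neg hw]
    have e : (fun q => (⟨a q, b q⟩ : ℂ)) = fun q => ((a q : ℝ) : ℂ) + ((b q : ℝ) : ℂ) * Complex.I := by
      funext q
      exact Complex.mk_eq_add_mul_I _ _
    rw [e]
    exact h1.add (h2.mul contDiff_const)

/-! ## 2. Components as group homomorphisms -/

/-- The component at the infinite place `w`. -/
def cGL437 (w : InfinitePlace K) : G K →* GL (Fin 2) w.Completion :=
  Units.map (RingHom.mapMatrix (evInf724 w)).toMonoidHom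

/-- The component at the finite place `v`. -/
def fGL437 (v : HeightOneSpectrum (𝓞 K)) : G K →* GL (Fin 2) (v.adicCompletion K) :=
  Units.map (RingHom.mapMatrix (evFin724 v)).toMonoidHom

theorem cGL_val437 (w : InfinitePlace K) (g : G K) :
    ((cGL437 w g : GL (Fin 2) w.Completion) : Matrix (Fin 2) (Fin 2) w.Completion)
      = cInf724 w g := rfl

theorem fGL_val437 (v : HeightOneSpectrum (𝓞 K)) (g : G K) :
    ((fGL437 v g : GL (Fin 2) (v.adicCompletion K)) :
      Matrix (Fin 2) (Fin 2) (v.adicCompletion K)) = finComp v g := rfl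

theorem gK_ext437 {g h : G K} (h1 : ∀ w, cGL437 w g = cGL437 w h)
    (h2 : ∀ v, fGL437 v g = fGL437 v h) : g = h :=
  g_ext724 (fun w => congrArg Units.val (h1 w)) (fun v => congrArg Units.val (h2 v))

theorem cGL_eq_of_cInf437 {w : InfinitePlace K} {g h : G K} (e : cInf724 w g = cInf724 w h) :
    cGL437 w g = cGL437 w h := Units.ext e

theorem fGL_eq_one_of437 {v : HeightOneSpectrum (𝓞 K)} {g : G K} (e : finComp v g = 1) :
    fGL437 v g = 1 := Units.ext e

/-- `infComp` is multiplicative. -/
theorem infComp_mul437 (w : InfinitePlace K) (g h : G K) :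
    infComp w (g * h) = infComp w g * infComp w h := by
  simp only [infComp_eq_map724, Units.val_mul, Matrix.map_mul]

theorem infComp_one437 (w : InfinitePlace K) : infComp w (1 : G K) = 1 := by
  simp only [infComp_eq_map724, Units.val_one]
  exact Matrix.map_one _ (map_zero _) (map_one _)

theorem infComp_mul_inv437 (w : InfinitePlace K) (g : G K) :
    infComp w g * infComp w g⁻¹ = 1 := by
  rw [← infComp_mul437, mul_inv_cancel, infComp_one437]

/-! ## 3. The infinite part, the chart, the unipotent family -/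

/-- The infinite part of `g`: the same components at the infinite places, `1` at the finite
places. -/
def pInf437 (g : G K) : G K :=
  mkG724 (fun w => cInf724 w g) (fun w => cInf724 w g⁻¹) (fun _ => 1) (fun _ => 1)
    (fun v i j => val_one_apply_le724 v i j) (fun v i j => val_one_apply_le724 v i j)
    (fun w => cInf_mul_inv724 w g) (fun _ => one_mul 1)

theorem cGL_pInf437 (w : InfinitePlace K) (g : G K) : cGL437 w (pInf437 g) = cGL437 w g :=
  Units.ext rfl

theorem fGL_pInf437 (v : HeightOneSpectrum (𝓞 K)) (g : G K) : fGL437 v (pInf437 g) = 1 :=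
  Units.ext rfl

/-- Matrix coordinates at infinity. -/
abbrev MatCoord437 (K : Type) [Field K] [NumberField K] : Type :=
  InfinitePlace K → Fin 2 → Fin 2 → Bool → ℝ

/-- Adele coordinates at infinity. -/
abbrev AdCoord437 (K : Type) [Field K] [NumberField K] : Type := InfinitePlace K → Bool → ℝ

/-- The chart matrix `1 + ρ(X)` at `w`, over `ℂ`. -/
def chartC437 (X : MatCoord437 K) (w : InfinitePlace K) : Matrix (Fin 2) (Fin 2) ℂ :=
  1 + Matrix.of fun i j => kapC437 w (rho437 (X w i j false)) (rho437 (X w i j true))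

/-- The chart matrix `1 + ρ(X)` at `w`, over the completion. -/
def chartMat437 (X : MatCoord437 K) (w : InfinitePlace K) :
    Matrix (Fin 2) (Fin 2) w.Completion :=
  1 + Matrix.of fun i j => kap437 w (rho437 (X w i j false)) (rho437 (X w i j true))

theorem chartMat_map437 (X : MatCoord437 K) (w : InfinitePlace K) :
    (chartMat437 X w).map (InfinitePlace.Completion.extensionEmbedding w) = chartC437 X w := by
  ext i j
  simp only [chartMat437, chartC437, Matrix.map_apply, Matrix.add_apply, Matrix.of_apply,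
    map_add, emb_kap437]
  congr 1
  rw [Matrix.one_apply, Matrix.one_apply]
  split_ifs
  · exact map_one _
  · exact map_zero _

theorem det_chartC_ne_zero437 (X : MatCoord437 K) (w : InfinitePlace K) :
    (chartC437 X w).det ≠ 0 := by
  apply det_one_add_ne_zero437
  intro i j
  rw [Matrix.of_apply]
  have h1 := abs_rho437_lt (X w i j false)
  have h2 := abs_rho437_lt (X w i j true)
  have := norm_kapC_le437 w (rho437 (X w i j false)) (rho437 (X w i j true))
  linarith

theorem det_chartMat_ne_zero437 (X : MatCoord437 K) (w : InfinitePlace K) :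
    (chartMat437 X w).det ≠ 0 := by
  intro h0
  apply det_chartC_ne_zero437 X w
  rw [← chartMat_map437]
  have := RingHom.map_det (InfinitePlace.Completion.extensionEmbedding w) (chartMat437 X w)
  rw [RingHom.mapMatrix_apply] at this
  rw [← this, h0, map_zero]

/-- The chart `A(X) = 1 + ρ(X)` at the infinite places, `1` at the finite places. -/
def chartG437 (X : MatCoord437 K) : G K :=
  mkG724 (chartMat437 X) (fun w => (chartMat437 X w)⁻¹) (fun _ => 1) (fun _ => 1)
    (fun v i j => val_one_apply_le724 v i j) (fun v i j => val_one_apply_le724 v i j)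
    (fun w => Matrix.mul_nonsing_inv _ (isUnit_iff_ne_zero.mpr (det_chartMat_ne_zero437 X w)))
    (fun _ => one_mul 1)

theorem cInf_chartG437 (X : MatCoord437 K) (w : InfinitePlace K) :
    cInf724 w (chartG437 X) = chartMat437 X w := rfl

theorem fGL_chartG437 (X : MatCoord437 K) (v : HeightOneSpectrum (𝓞 K)) :
    fGL437 v (chartG437 X) = 1 := Units.ext rfl

theorem infComp_chartG437 (X : MatCoord437 K) (w : InfinitePlace K) :
    infComp w (chartG437 X) = chartC437 X w := by
  rw [infComp_eq_cInf724, cInf_chartG437, chartMat_map437]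

/-- The adele supported at infinity with the real coordinates `t`. -/
def adInf437 (t : AdCoord437 K) : Adl K :=
  ((fun w => kap437 w (t w false) (t w true)), (0 : FiniteAdeleRing (𝓞 K) K))

/-- The real coordinates of the infinite part of an adele. -/
def coordInf437 (y : Adl K) : AdCoord437 K := fun w b =>
  if b then (InfinitePlace.Completion.extensionEmbedding w (y.1 w)).im
  else (InfinitePlace.Completion.extensionEmbedding w (y.1 w)).re

theorem adInf_coord437 (y : Adl K) (hy : y.2 = 0) : adInf437 (coordInf437 y) = y := by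
  refine Prod.ext (funext fun w => ?_) hy.symm
  simp only [adInf437, coordInf437, Bool.false_eq_true, if_false, if_true]
  exact kap_coord437 w (y.1 w)

theorem coordInf_sub437 (y τ : Adl K) :
    coordInf437 (y - τ) = fun w b => coordInf437 y w b - coordInf437 τ w b := by
  funext w b
  have h0 : (y - τ).1 w = y.1 w - τ.1 w := rfl
  unfold coordInf437
  rw [h0, map_sub]
  by_cases hb : b = true
  · simp [hb]
  · simp [hb]

theorem coordInf_zero437 : coordInf437 (0 : Adl K) = fun _ _ => 0 := by
  funext w b
  have h0 : (0 : Adl K).1 w = 0 := rfl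
  unfold coordInf437
  rw [h0, map_zero]
  by_cases hb : b = true
  · simp [hb]
  · simp [hb]

theorem abs_coordInf_le437 (y : Adl K) (w : InfinitePlace K) (b : Bool) :
    |coordInf437 y w b| ≤ ‖y.1 w‖ := by
  rw [← norm_emb437 w (y.1 w)]
  unfold coordInf437
  by_cases hb : b = true
  · simp only [hb, if_true]
    exact Complex.abs_im_le_norm _
  · simp only [hb, Bool.false_eq_true, if_false]
    exact Complex.abs_re_le_norm _

/-- The family `Y(X, t, X')`. -/
def fam437 (ω₀ h₀ : G K) (X : MatCoord437 K) (t : AdCoord437 K) (X' : MatCoord437 K) : G K :=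
  (pInf437 h₀)⁻¹ * (chartG437 X)⁻¹ * (pInf437 ω₀)⁻¹ * unip386 (adInf437 t) * pInf437 ω₀ *
    chartG437 X * pInf437 h₀ * chartG437 X'

theorem fGL_unip437 (v : HeightOneSpectrum (𝓞 K)) {y : Adl K} (hy : y.2 = 0) :
    fGL437 v (unip386 y) = 1 := by
  have hy' : evFin724 v y = 0 := by
    rw [evFin724_apply, hy]
    rfl
  apply Units.ext
  rw [fGL_val437, Units.val_one, finComp_eq_map724, unip386_coe]
  ext i j
  fin_cases i <;> fin_cases j <;> simp [Matrix.map_apply, hy']

theorem fGL_fam437 (ω₀ h₀ : G K) (X : MatCoord437 K) (t : AdCoord437 K) (X' : MatCoord437 K)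
    (v : HeightOneSpectrum (𝓞 K)) : fGL437 v (fam437 ω₀ h₀ X t X') = 1 := by
  unfold fam437
  simp only [map_mul, map_inv, fGL_pInf437, fGL_chartG437, fGL_unip437 v (y := adInf437 t) rfl,
    inv_one, mul_one]

theorem trivAtFin_fam437 (ω₀ h₀ : G K) (X : MatCoord437 K) (t : AdCoord437 K)
    (X' : MatCoord437 K) (v : HeightOneSpectrum (𝓞 K)) :
    TrivAtFin v (fam437 ω₀ h₀ X t X') := by
  have := congrArg Units.val (fGL_fam437 ω₀ h₀ X t X' v)
  rwa [fGL_val437, Units.val_one] at this

/-- **The relation.**  For `y` supported at infinity, `ω = ω₀ a c` and `h = h₀ g` with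
`P∞ (ω₀⁻¹ ω) = A(X)`, `P∞ g = A(X')`:
`ω⁻¹ n(y) ω h = h₀ · Y(X, t(y), X') · u`, `u = (P∞ g)⁻¹ g`. -/
theorem fam_rel437 (ω₀ h₀ ω g : G K) (X X' : MatCoord437 K) (y : Adl K) (hy : y.2 = 0)
    (hω : pInf437 (ω₀⁻¹ * ω) = chartG437 X) (hg : pInf437 g = chartG437 X') :
    ω⁻¹ * unip386 y * ω * (h₀ * g)
      = h₀ * fam437 ω₀ h₀ X (coordInf437 y) X' * ((pInf437 g)⁻¹ * g) := by
  refine gK_ext437 (fun w => ?_) (fun v => ?_)
  · have e1 : cGL437 w (chartG437 X) = (cGL437 w ω₀)⁻¹ * cGL437 w ω := by
      rw [← hω, cGL_pInf437, map_mul, map_inv]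
    have e2 : cGL437 w (chartG437 X') = cGL437 w g := by
      rw [← hg, cGL_pInf437]
    unfold fam437
    simp only [map_mul, map_inv, cGL_pInf437, adInf_coord437 y hy, e1, e2]
    group
  · unfold fam437
    simp only [map_mul, map_inv, fGL_pInf437, fGL_chartG437, fGL_unip437 v hy,
      fGL_unip437 v (y := adInf437 (coordInf437 y)) rfl, inv_one, mul_one, one_mul]
    group

/-- `u = (P∞ g)⁻¹ g` is in the level group as soon as `g` satisfies the finite level
condition. -/
theorem inLevelGroup_finPart437 {𝔫 : Ideal (𝓞 K)} {g : G K} (hg : FinLevel437 𝔫 g) :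
    InLevelGroup 𝔫 ((pInf437 g)⁻¹ * g) := by
  have hc : ∀ w, cGL437 w ((pInf437 g)⁻¹ * g) = 1 := by
    intro w
    rw [map_mul, map_inv, cGL_pInf437, inv_mul_cancel]
  have hf : ∀ v, fGL437 v ((pInf437 g)⁻¹ * g) = fGL437 v g := by
    intro v
    rw [map_mul, map_inv, fGL_pInf437, inv_one, one_mul]
  refine ⟨fun w => ?_, fun v i j => ?_⟩
  · rw [trivAtInf_iff_cInf724, ← cGL_val437, hc w, Units.val_one]
  · have h1 : finComp v ((pInf437 g)⁻¹ * g) = finComp v g := by
      rw [← fGL_val437, hf v, fGL_val437]
    have h2 : finComp v ((pInf437 g)⁻¹ * g)⁻¹ = finComp v g⁻¹ := by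
      rw [← fGL_val437, map_inv, hf v, ← map_inv, fGL_val437]
    rw [h1, h2]
    exact hg v i j

end Fermat.Agent.LT.T2.H437

end
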