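import Mathlib
import Fermat.Agent.LT.T2.H437.USAdelic

/-!
# Row LT, tower T2, leaf T2.03a.2 (helper437): THE TOP

    unifSmooth_of_leaves437 :
      FDCalcC437 → LevelNhdsC437 K → H511.CptC K → ∀ 𝔫 ≠ ⊥, H511.UnifSmoothC K 𝔫
    leafUnifSmooth_of_leaves437 :
      FDCalcC437 → LevelNhdsC437 K → H511.CptC K → H511.LeafUnifSmooth K

(`H511.UnifSmoothC`, `H511.LeafUnifSmooth` VERBATIM from `LT/T2/H511/FDSpec.lean`,
helper511@94e516506.)
-/

set_option autoImplicit false
set_option linter.unusedSectionVars false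

open IsDedekindDomain NumberField
open Fermat.Agent.LT.H556.A0 Fermat.Agent.LT.T1.H724 Fermat.Agent.LT.T2.H724
open Fermat.Agent.LT.T2.H386 Fermat.Agent.LT.T2.H511 Fermat.Agent.LT.T2

noncomputable section

namespace Fermat.Agent.LT.T2.H437

variable {K : Type} [Field K] [NumberField K]

/-! ## 1. The parameter space `ℝ^N` -/

/-- The index type of the parameters `(X, t, X')`. -/
abbrev Idx437 (K : Type) [Field K] [NumberField K] : Type :=
  (InfinitePlace K × Fin 2 × Fin 2 × Bool) ⊕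
    ((InfinitePlace K × Bool) ⊕ (InfinitePlace K × Fin 2 × Fin 2 × Bool))

/-- The number of parameters. -/
def nPar437 (K : Type) [Field K] [NumberField K] : ℕ := Fintype.card (Idx437 K)

/-- The enumeration of the parameters. -/
def ePar437 (K : Type) [Field K] [NumberField K] : Idx437 K ≃ Fin (nPar437 K) :=
  Fintype.equivFin _

/-- The first matrix coordinates of a parameter. -/
def parX437 (q : Fin (nPar437 K) → ℝ) : MatCoord437 K :=
  fun w i j b => q (ePar437 K (Sum.inl (w, i, j, b)))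

/-- The adele coordinates of a parameter. -/
def parT437 (q : Fin (nPar437 K) → ℝ) : AdCoord437 K :=
  fun w b => q (ePar437 K (Sum.inr (Sum.inl (w, b))))

/-- The second matrix coordinates of a parameter. -/
def parY437 (q : Fin (nPar437 K) → ℝ) : MatCoord437 K :=
  fun w i j b => q (ePar437 K (Sum.inr (Sum.inr (w, i, j, b))))

/-- The parameter with the coordinates `(X, t, X')`. -/
def pack437 (X : MatCoord437 K) (t : AdCoord437 K) (X' : MatCoord437 K) :
    Fin (nPar437 K) → ℝ := fun k =>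
  match (ePar437 K).symm k with
  | Sum.inl (w, i, j, b) => X w i j b
  | Sum.inr (Sum.inl (w, b)) => t w b
  | Sum.inr (Sum.inr (w, i, j, b)) => X' w i j b

theorem parX_pack437 (X : MatCoord437 K) (t : AdCoord437 K) (X' : MatCoord437 K) :
    parX437 (pack437 X t X') = X := by
  funext w i j b
  simp [parX437, pack437]

theorem parT_pack437 (X : MatCoord437 K) (t : AdCoord437 K) (X' : MatCoord437 K) :
    parT437 (pack437 X t X') = t := by
  funext w b
  simp [parT437, pack437]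

theorem parY_pack437 (X : MatCoord437 K) (t : AdCoord437 K) (X' : MatCoord437 K) :
    parY437 (pack437 X t X') = X' := by
  funext w i j b
  simp [parY437, pack437]

theorem pack_sub437 (X : MatCoord437 K) (t s : AdCoord437 K) (X' : MatCoord437 K) :
    pack437 X (fun w b => t w b - s w b) X'
      = pack437 X t X' - pack437 (fun _ _ _ _ => 0) s (fun _ _ _ _ => 0) := by
  funext k
  simp only [pack437, Pi.sub_apply]
  rcases (ePar437 K).symm k with ⟨w, i, j, b⟩ | ⟨w, b⟩ | ⟨w, i, j, b⟩ <;> simp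

theorem norm_pack_le437 (X : MatCoord437 K) (t : AdCoord437 K) (X' : MatCoord437 K) {r : ℝ}
    (hr : 0 ≤ r) (hX : ∀ w i j b, |X w i j b| ≤ r) (ht : ∀ w b, |t w b| ≤ r)
    (hX' : ∀ w i j b, |X' w i j b| ≤ r) : ‖pack437 X t X'‖ ≤ r := by
  rw [pi_norm_le_iff_of_nonneg hr]
  intro k
  rw [Real.norm_eq_abs]
  simp only [pack437]
  rcases (ePar437 K).symm k with ⟨w, i, j, b⟩ | ⟨w, b⟩ | ⟨w, i, j, b⟩
  · exact hX w i j b
  · exact ht w b
  · exact hX' w i j b

/-- The family `Y` on the parameter space. -/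
def famQ437 (ω₀ h₀ : G K) (q : Fin (nPar437 K) → ℝ) : G K :=
  fam437 ω₀ h₀ (parX437 q) (parT437 q) (parY437 q)

/-! ## 2. Smoothness of the family -/

theorem smooth_chartX437 (w : InfinitePlace K) :
    SmoothMat437 (fun q : Fin (nPar437 K) → ℝ => infComp w (chartG437 (parX437 q))) := by
  intro i j
  simp only [infComp_chartG437, chartC437, Matrix.add_apply, Matrix.of_apply, parX437]
  exact contDiff_const.add (contDiff_kapC437 w
    (contDiff_rho437.comp (contDiff_apply ℝ ℝ _)) (contDiff_rho437.comp (contDiff_apply ℝ ℝ _)))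

theorem smooth_chartY437 (w : InfinitePlace K) :
    SmoothMat437 (fun q : Fin (nPar437 K) → ℝ => infComp w (chartG437 (parY437 q))) := by
  intro i j
  simp only [infComp_chartG437, chartC437, Matrix.add_apply, Matrix.of_apply, parY437]
  exact contDiff_const.add (contDiff_kapC437 w
    (contDiff_rho437.comp (contDiff_apply ℝ ℝ _)) (contDiff_rho437.comp (contDiff_apply ℝ ℝ _)))

theorem infComp_unip437 (w : InfinitePlace K) (t : AdCoord437 K) :
    infComp w (unip386 (adInf437 t)) = !![1, kapC437 w (t w false) (t w true); 0, 1] := by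
  rw [infComp_eq_map724, unip386_coe]
  have e : infMap724 w (adInf437 t) = kapC437 w (t w false) (t w true) := by
    rw [← emb_kap437]
    rfl
  ext i j
  fin_cases i <;> fin_cases j <;> simp [Matrix.map_apply, e]

theorem smooth_unip437 (w : InfinitePlace K) :
    SmoothMat437 (fun q : Fin (nPar437 K) → ℝ => infComp w (unip386 (adInf437 (parT437 q)))) := by
  intro i j
  simp only [infComp_unip437, parT437]
  fin_cases i <;> fin_cases j
  · simpa using (contDiff_const : ContDiff ℝ (⊤ : ℕ∞) (fun _ : Fin (nPar437 K) → ℝ => (1 : ℂ)))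
  · simpa using contDiff_kapC437 w (contDiff_apply ℝ ℝ (ePar437 K (Sum.inr (Sum.inl (w, false)))))
      (contDiff_apply ℝ ℝ (ePar437 K (Sum.inr (Sum.inl (w, true)))))
  · simpa using (contDiff_const : ContDiff ℝ (⊤ : ℕ∞) (fun _ : Fin (nPar437 K) → ℝ => (0 : ℂ)))
  · simpa using (contDiff_const : ContDiff ℝ (⊤ : ℕ∞) (fun _ : Fin (nPar437 K) → ℝ => (1 : ℂ)))

theorem smooth_famQ437 (ω₀ h₀ : G K) (w : InfinitePlace K) :
    SmoothMat437 (fun q : Fin (nPar437 K) → ℝ => infComp w (famQ437 ω₀ h₀ q)) := by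
  have hXi : SmoothMat437
      (fun q : Fin (nPar437 K) → ℝ => infComp w (chartG437 (parX437 q))⁻¹) :=
    (smooth_chartX437 w).inv (fun q => infComp_mul_inv437 w _)
  have e : (fun q : Fin (nPar437 K) → ℝ => infComp w (famQ437 ω₀ h₀ q))
      = fun q => infComp w (pInf437 h₀)⁻¹ * infComp w (chartG437 (parX437 q))⁻¹ *
          infComp w (pInf437 ω₀)⁻¹ * infComp w (unip386 (adInf437 (parT437 q))) *
          infComp w (pInf437 ω₀) * infComp w (chartG437 (parX437 q)) *
          infComp w (pInf437 h₀) * infComp w (chartG437 (parY437 q)) := by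
    funext q
    simp only [famQ437, fam437, infComp_mul437]
  rw [e]
  exact (((((((smoothMat_const437 _).mul hXi).mul (smoothMat_const437 _)).mul
    (smooth_unip437 w)).mul (smoothMat_const437 _)).mul (smooth_chartX437 w)).mul
    (smoothMat_const437 _)).mul (smooth_chartY437 w)

/-- The function of the chart `(ω₀, h₀)` is smooth. -/
theorem contDiff_chartFn437 {f : G K → ℂ} (hf : IsSmoothAtInf f) (ω₀ h₀ : G K) :
    ContDiff ℝ (⊤ : ℕ∞) (fun q : Fin (nPar437 K) → ℝ => f (h₀ * famQ437 ω₀ h₀ q)) :=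
  hf (nPar437 K) (famQ437 ω₀ h₀) (fun _ v => trivAtFin_fam437 ω₀ h₀ _ _ _ v)
    (fun w i j => smooth_famQ437 ω₀ h₀ w i j) h₀

/-! ## 3. Topology: neighbourhoods at infinity, coverings -/

theorem continuous_infComp437 (w : InfinitePlace K) (i j : Fin 2) :
    Continuous (fun g : G K => infComp w g i j) := by
  have h1 : Continuous (fun g : G K => (g : Matrix (Fin 2) (Fin 2) (Adl K)) i j) :=
    (Units.continuous_val).matrix_elem i j
  have h2 : Continuous (fun x : Adl K => x.1 w) := (continuous_apply w).comp continuous_fst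
  exact (InfinitePlace.Completion.isometry_extensionEmbedding w).continuous.comp (h2.comp h1)

/-- The neighbourhood of `1` at infinity covered by the chart. -/
def nbInf437 (K : Type) [Field K] [NumberField K] : Set (G K) :=
  {g | ∀ (w : InfinitePlace K) (i j : Fin 2), ‖(infComp w g - 1) i j‖ < 1 / 16}

theorem isOpen_nbInf437 : IsOpen (nbInf437 K) := by
  have e : nbInf437 K = ⋂ (w : InfinitePlace K), ⋂ (i : Fin 2), ⋂ (j : Fin 2),
      {g : G K | ‖(infComp w g - 1) i j‖ < 1 / 16} := by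
    ext g
    simp [nbInf437]
  rw [e]
  refine isOpen_iInter_of_finite fun w => isOpen_iInter_of_finite fun i =>
    isOpen_iInter_of_finite fun j => ?_
  refine isOpen_lt ?_ continuous_const
  simp only [Matrix.sub_apply]
  exact ((continuous_infComp437 w i j).sub continuous_const).norm

theorem one_mem_nbInf437 : (1 : G K) ∈ nbInf437 K := by
  intro w i j
  rw [infComp_one437, sub_self, Matrix.zero_apply, norm_zero]
  norm_num

/-- An element of the neighbourhood has its infinite part in the chart, with parameters in the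
unit box. -/
theorem exists_chart437 {g : G K} (hg : g ∈ nbInf437 K) :
    ∃ X : MatCoord437 K, (∀ w i j b, |X w i j b| ≤ 1) ∧ pInf437 g = chartG437 X := by
  have hex : ∀ (w : InfinitePlace K) (i j : Fin 2) (b : Bool), ∃ x : ℝ, |x| ≤ 1 ∧
      rho437 x = if b then ((infComp w g - 1) i j).im else ((infComp w g - 1) i j).re := by
    intro w i j b
    apply exists_rho437_eq
    have h := (hg w i j).le
    by_cases hb : b = true
    · simp only [hb, if_true]
      exact (Complex.abs_im_le_norm _).trans h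
    · simp only [hb, Bool.false_eq_true, if_false]
      exact (Complex.abs_re_le_norm _).trans h
  choose X hX1 hXe using hex
  refine ⟨X, hX1, gK_ext437 (fun w => ?_) (fun v => ?_)⟩
  · rw [cGL_pInf437]
    apply Units.ext
    rw [cGL_val437, cGL_val437, cInf_chartG437]
    ext i j
    have hz : (infComp w g - 1) i j = InfinitePlace.Completion.extensionEmbedding w
        (cInf724 w g i j - (1 : Matrix (Fin 2) (Fin 2) w.Completion) i j) := by
      rw [Matrix.sub_apply, map_sub, infComp_eq_cInf724, Matrix.map_apply]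
      congr 1
      rw [Matrix.one_apply, Matrix.one_apply]
      split_ifs
      · exact (map_one _).symm
      · exact (map_zero _).symm
    have h1 := hXe w i j false
    have h2 := hXe w i j true
    simp only [Bool.false_eq_true, if_false, if_true] at h1 h2
    simp only [chartMat437, Matrix.add_apply, Matrix.of_apply]
    rw [h1, h2, hz, kap_coord437]
    exact (add_sub_cancel _ _).symm
  · rw [fGL_pInf437, fGL_chartG437]

/-- Finite coverings of a compact set by left translates of a neighbourhood of `1`. -/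
theorem exists_cover437 {S : Set (G K)} (hS : IsCompact S) {N : Set (G K)}
    (hN : N ∈ nhds (1 : G K)) :
    ∃ T : Finset (G K), ∀ s ∈ S, ∃ s₀ ∈ T, s₀⁻¹ * s ∈ N := by
  have hU : ∀ s₀ ∈ S, {s : G K | s₀⁻¹ * s ∈ N} ∈ nhds s₀ := by
    intro s₀ _
    have hc : Continuous (fun s : G K => s₀⁻¹ * s) := continuous_const.mul continuous_id
    exact hc.continuousAt.preimage_mem_nhds (by rw [inv_mul_cancel]; exact hN)
  obtain ⟨T, -, hT⟩ := hS.elim_nhds_subcover (fun s₀ => {s : G K | s₀⁻¹ * s ∈ N}) hU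
  refine ⟨T, fun s hs => ?_⟩
  obtain ⟨s₀, hs₀T, hs₀⟩ := Set.mem_iUnion₂.mp (hT hs)
  exact ⟨s₀, hs₀T, hs₀⟩

/-! ## 4. Finite differences: transfer and vanishing -/

/-- The coordinates of the step `τ`. -/
def stepQ437 (τ : Adl K) : Fin (nPar437 K) → ℝ :=
  pack437 (fun _ _ _ _ => 0) (coordInf437 τ) (fun _ _ _ _ => 0)

theorem bdiff_transfer437 (X X' : MatCoord437 K) :
    ∀ (τs : List (Adl K)) (Ψ : Adl K → ℂ) (φ : (Fin (nPar437 K) → ℝ) → ℂ),
      (∀ y : Adl K, y.2 = 0 → Ψ y = φ (pack437 X (coordInf437 y) X')) →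
      (∀ τ ∈ τs, τ.2 = 0) →
      ∀ y : Adl K, y.2 = 0 →
        bdiff511 τs Ψ y = rdiff437 (τs.map stepQ437) φ (pack437 X (coordInf437 y) X') := by
  intro τs
  induction τs with
  | nil =>
    intro Ψ φ h _ y hy
    exact h y hy
  | cons u us ih =>
    intro Ψ φ h hτ y hy
    have hu : u.2 = 0 := hτ u (List.mem_cons_self)
    simp only [bdiff511, List.map_cons, rdiff437]
    refine ih _ _ ?_ (fun τ hτ' => hτ τ (List.mem_cons_of_mem _ hτ')) y hy
    intro z hz
    have hzu : (z - u).2 = 0 := by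
      have e : (z - u).2 = z.2 - u.2 := rfl
      rw [e, hz, hu, sub_zero]
    rw [h z hz, h (z - u) hzu, coordInf_sub437, pack_sub437]
    rfl

theorem bdiff_vanish437 (s : ℝ) (hs : 0 ≤ s) :
    ∀ (τs : List (Adl K)) (Ψ : Adl K → ℂ) (c : ℝ),
      (∀ τ ∈ τs, τ.2 = 0 ∧ ∀ w : InfinitePlace K, ‖τ.1 w‖ ≤ s) →
      (∀ y : Adl K, y.2 = 0 → (∀ w : InfinitePlace K, ‖y.1 w‖ ≤ c + τs.length * s) → Ψ y = 0) →
      ∀ y : Adl K, y.2 = 0 → (∀ w : InfinitePlace K, ‖y.1 w‖ ≤ c) → bdiff511 τs Ψ y = 0 := by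
  intro τs
  induction τs with
  | nil =>
    intro Ψ c _ h y hy hyc
    exact h y hy (fun w => by simpa using hyc w)
  | cons u us ih =>
    intro Ψ c hτ h y hy hyc
    obtain ⟨hu, hus⟩ := hτ u (List.mem_cons_self)
    simp only [bdiff511]
    refine ih _ c (fun τ hτ' => hτ τ (List.mem_cons_of_mem _ hτ')) ?_ y hy hyc
    intro z hz hzc
    have hlen : (((u :: us).length : ℕ) : ℝ) = (us.length : ℝ) + 1 := by
      rw [List.length_cons]
      push_cast
      ring
    have h1 : Ψ z = 0 := by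
      refine h z hz (fun w => (hzc w).trans ?_)
      rw [hlen]
      nlinarith [Nat.cast_nonneg (α := ℝ) us.length]
    have h2 : Ψ (z - u) = 0 := by
      have hzu : (z - u).2 = 0 := by
        have e : (z - u).2 = z.2 - u.2 := rfl
        rw [e, hz, hu, sub_zero]
      refine h (z - u) hzu (fun w => ?_)
      have e : (z - u).1 w = z.1 w - u.1 w := rfl
      rw [e, hlen]
      calc ‖z.1 w - u.1 w‖ ≤ ‖z.1 w‖ + ‖u.1 w‖ := norm_sub_le _ _
        _ ≤ (c + us.length * s) + s := add_le_add (hzc w) (hus w)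
        _ = c + (us.length + 1) * s := by ring
    rw [h1, h2, sub_zero]

/-! ## 5. The assembly -/

/-- **THE TOP of T2.03a.2.**  Uniform smoothness of a test function along the conjugated
unipotent directions at infinity, from the FD calculus on `ℝ^N`, the level neighbourhood and the
compactness facts of T2.03a.4. -/
theorem unifSmooth_of_leaves437 (hFD : FDCalcC437) (hLN : LevelNhdsC437 K) (hCpt : CptC K)
    (𝔫 : Ideal (𝓞 K)) (h𝔫 : 𝔫 ≠ ⊥) : UnifSmoothC K 𝔫 := by
  intro f hf Ω hΩ R M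
  obtain ⟨hC1, -, hC3, -⟩ := hCpt
  set r : ℝ := max 1 R with hr
  have hr1 : (1 : ℝ) ≤ r := le_max_left _ _
  have hrR : R ≤ r := le_max_right _ _
  have hr0 : (0 : ℝ) ≤ r := zero_le_one.trans hr1
  -- the box and the compact set `W⁻¹ supp f`
  have hBox : IsCompact (box511 ({0} : Set (Adl K)) (M * r) 1) :=
    hC3 {0} isCompact_singleton (M * r) 1
  have hW : IsCompact (conjSet511 Ω (box511 ({0} : Set (Adl K)) (M * r) 1)) :=
    hC1 Ω hΩ _ hBox
  have hH₀ : IsCompact ((fun p : G K × G K => p.1⁻¹ * p.2) ''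
      (conjSet511 Ω (box511 ({0} : Set (Adl K)) (M * r) 1) ×ˢ tsupport f)) :=
    (hW.prod hf.cpt).image (continuous_fst.inv.mul continuous_snd)
  -- the coverings
  obtain ⟨TΩ, hTΩ⟩ := exists_cover437 hΩ (isOpen_nbInf437.mem_nhds one_mem_nbInf437)
  obtain ⟨TH, hTH⟩ := exists_cover437 hH₀
    (Filter.inter_mem (isOpen_nbInf437.mem_nhds one_mem_nbInf437) (hLN 𝔫 h𝔫))
  -- the constants of the charts
  have hB : ∀ ω₀ h₀ : G K, ∃ B : ℝ, 0 ≤ B ∧ ∀ x : Fin (nPar437 K) → ℝ, ‖x‖ ≤ r →
      ∀ ε : ℝ, 0 ≤ ε → ε ≤ 1 → ∀ ts : List (Fin (nPar437 K) → ℝ), ts.length = M →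
        (∀ t ∈ ts, ‖t‖ ≤ ε * r) →
        ‖rdiff437 ts (fun q => f (h₀ * famQ437 ω₀ h₀ q)) x‖ ≤ B * ε ^ M :=
    fun ω₀ h₀ => hFD _ _ (contDiff_chartFn437 hf.smooth ω₀ h₀) M r
  choose B hB0 hB using hB
  have hsum0 : 0 ≤ ∑ ω₀ ∈ TΩ, ∑ h₀ ∈ TH, B ω₀ h₀ :=
    Finset.sum_nonneg fun _ _ => Finset.sum_nonneg fun _ _ => hB0 _ _
  refine ⟨∑ ω₀ ∈ TΩ, ∑ h₀ ∈ TH, B ω₀ h₀, hsum0, ?_⟩
  intro ω hω h ε hε hε1 τs hlen hτ
  have hτ' : ∀ τ ∈ τs, τ.2 = 0 ∧ ∀ w : InfinitePlace K, ‖τ.1 w‖ ≤ ε * r := fun τ hτm =>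
    ⟨(hτ τ hτm).1, fun w => ((hτ τ hτm).2 w).trans (mul_le_mul_of_nonneg_left hrR hε.le)⟩
  by_cases hh : h ∈ (fun p : G K × G K => p.1⁻¹ * p.2) ''
      (conjSet511 Ω (box511 ({0} : Set (Adl K)) (M * r) 1) ×ˢ tsupport f)
  · obtain ⟨ω₀, hω₀T, hω₀⟩ := hTΩ ω hω
    obtain ⟨h₀, hh₀T, hh₀⟩ := hTH h hh
    obtain ⟨X, hX1, hXe⟩ := exists_chart437 hω₀
    obtain ⟨X', hX'1, hX'e⟩ := exists_chart437 hh₀.1
    have key : ∀ y : Adl K, y.2 = 0 →
        f (ω⁻¹ * unip386 y * ω * h)
          = f (h₀ * famQ437 ω₀ h₀ (pack437 X (coordInf437 y) X')) := by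
      intro y hy
      have e := fam_rel437 ω₀ h₀ ω (h₀⁻¹ * h) X X' y hy hXe hX'e
      rw [mul_inv_cancel_left] at e
      rw [e, hf.level_right _ (inLevelGroup_finPart437 hh₀.2)]
      simp only [famQ437, parX_pack437, parT_pack437, parY_pack437]
    rw [bdiff_transfer437 X X' τs (fun y => f (ω⁻¹ * unip386 y * ω * h))
      (fun q => f (h₀ * famQ437 ω₀ h₀ q)) key (fun τ hτm => (hτ τ hτm).1) 0 rfl]
    have hbase : ‖pack437 X (coordInf437 (0 : Adl K)) X'‖ ≤ r := by
      refine norm_pack_le437 _ _ _ hr0 (fun w i j b => (hX1 w i j b).trans hr1) ?_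
        (fun w i j b => (hX'1 w i j b).trans hr1)
      intro w b
      rw [coordInf_zero437, abs_zero]
      exact hr0
    have hsteps : ∀ t ∈ τs.map stepQ437, ‖t‖ ≤ ε * r := by
      intro t ht
      obtain ⟨τ, hτm, rfl⟩ := List.mem_map.mp ht
      have h0 : (0 : ℝ) ≤ ε * r := mul_nonneg hε.le hr0
      refine norm_pack_le437 _ _ _ h0 (fun _ _ _ _ => by rw [abs_zero]; exact h0) ?_
        (fun _ _ _ _ => by rw [abs_zero]; exact h0)
      intro w b
      exact (abs_coordInf_le437 τ w b).trans ((hτ' τ hτm).2 w)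
    calc ‖rdiff437 (τs.map stepQ437) (fun q => f (h₀ * famQ437 ω₀ h₀ q))
          (pack437 X (coordInf437 (0 : Adl K)) X')‖
        ≤ B ω₀ h₀ * ε ^ M :=
          hB ω₀ h₀ _ hbase ε hε.le hε1 _ (by rw [List.length_map, hlen]) hsteps
      _ ≤ (∑ ω₀ ∈ TΩ, ∑ h₀ ∈ TH, B ω₀ h₀) * ε ^ M := by
        refine mul_le_mul_of_nonneg_right ?_ (pow_nonneg hε.le M)
        calc B ω₀ h₀ ≤ ∑ h₀ ∈ TH, B ω₀ h₀ :=
              Finset.single_le_sum (f := fun h₀ => B ω₀ h₀) (fun _ _ => hB0 _ _) hh₀T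
          _ ≤ ∑ ω₀ ∈ TΩ, ∑ h₀ ∈ TH, B ω₀ h₀ :=
              Finset.single_le_sum (f := fun ω₀ => ∑ h₀ ∈ TH, B ω₀ h₀)
                (fun _ _ => Finset.sum_nonneg fun _ _ => hB0 _ _) hω₀T
  · have hz : bdiff511 τs (fun y => f (ω⁻¹ * unip386 y * ω * h)) 0 = 0 := by
      refine bdiff_vanish437 (ε * r) (mul_nonneg hε.le hr0) τs _ 0 hτ' ?_ 0 rfl
        (fun w => ?_)
      · intro y hy hyc
        by_contra hne
        apply hh
        refine ⟨(ω⁻¹ * unip386 y * ω, ω⁻¹ * unip386 y * ω * h),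
          ⟨?_, subset_tsupport f hne⟩, inv_mul_cancel_left _ _⟩
        refine ⟨ω, hω, y, ⟨fun w => ?_, 0, rfl, ?_⟩, rfl⟩
        · calc ‖y.1 w‖ ≤ 0 + τs.length * (ε * r) := hyc w
            _ ≤ M * r := by
              rw [hlen, zero_add]
              exact mul_le_mul_of_nonneg_left (mul_le_of_le_one_left hr0 hε1)
                (Nat.cast_nonneg M)
        · rw [hy, mul_zero]
          rfl
      · have e : (0 : Adl K).1 w = 0 := rfl
        rw [e, norm_zero]
    rw [hz, norm_zero]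
    exact mul_nonneg hsum0 (pow_nonneg hε.le M)

/-- **T2.03a.2 `LeafUnifSmooth`** from the three sub-leaves (`T1.T1Out K` is not used). -/
theorem leafUnifSmooth_of_leaves437 (hFD : FDCalcC437) (hLN : LevelNhdsC437 K)
    (hCpt : CptC K) : LeafUnifSmooth K :=
  fun _ 𝔫 h𝔫 => unifSmooth_of_leaves437 hFD hLN hCpt 𝔫 h𝔫

end Fermat.Agent.LT.T2.H437

end
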