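import Mathlib
import Fermat.Agent.LT.T2.H437.USTop
import Fermat.Agent.LT.T2.H8.FDCalc
import Fermat.Agent.LT.T2.H187.LevelNhds
import Fermat.Agent.LT.T2.H793.Cpt

/-!
# Row LT, tower T2, leaf T2.03a.2 = `H511.LeafUnifSmooth` CLOSED (registry row 1225, helper437)

    leafUnifSmooth437 K : H511.LeafUnifSmooth K        (VERBATIM, FDSpec ad79b18a)

from the top `leafUnifSmooth_of_leaves437` (helper437) and the three inputs, byte-identical copies:
* `H8.fdCalcC437_h8 : FDCalcC437`            (row 1340, helper8@8a9bafacc, sha256 f4979805),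
* `H187.levelNhdsC187 K : LevelNhdsC437 K`   (row 1341, helper187@a84f1e2f5, sha256 0b648050),
* `H793.cptC793 K : H511.CptC K`             (row 1227, helper793@72d2d22b4, sha256 9a43cd55).
-/

set_option autoImplicit false

namespace Fermat.Agent.LT.T2.H437

/-- **T2.03a.2 `UnifSmoothC`**, for every number field and every non-zero level. -/
theorem unifSmoothC437 (K : Type) [Field K] [NumberField K]
    (𝔫 : Ideal (NumberField.RingOfIntegers K)) (h𝔫 : 𝔫 ≠ ⊥) :
    Fermat.Agent.LT.T2.H511.UnifSmoothC K 𝔫 :=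
  unifSmooth_of_leaves437 Fermat.Agent.LT.T2.H8.fdCalcC437_h8
    (Fermat.Agent.LT.T2.H187.levelNhdsC187 K) (Fermat.Agent.LT.T2.H793.cptC793 K) 𝔫 h𝔫

/-- **T2.03a.2 `LeafUnifSmooth`**, VERBATIM. -/
theorem leafUnifSmooth437 (K : Type) [Field K] [NumberField K] :
    Fermat.Agent.LT.T2.H511.LeafUnifSmooth K :=
  leafUnifSmooth_of_leaves437 Fermat.Agent.LT.T2.H8.fdCalcC437_h8
    (Fermat.Agent.LT.T2.H187.levelNhdsC187 K) (Fermat.Agent.LT.T2.H793.cptC793 K)

end Fermat.Agent.LT.T2.H437
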